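import Fermat.Agent.S26.StepA
import Fermat.Agent.S26.Curve.CFBasic
import Fermat.Agent.S26.Curve.CFExtra

/-! # S26 / M9b, part 1 : pointed fields: invariance of `deg` and `star` under isomorphism, swap, `n •`.
(split off `Top/Algebra.lean` so that it can be used below `Top/PartV.lean`; proofs by helper47) -/

set_option autoImplicit false

universe u

namespace Fermat.Agent.S26

open AlgebraicCurve IsLocalRing PField

variable {K : Type u} [Field K] [IsAlgClosed K] {F : Type u} [Field F] [Algebra K F] {M : AVModel K F}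

/-- (B4) abstract algebra. -/
theorem quadratic_of_cube {G : Type*} [AddCommGroup G] (f : G → ℤ) (h0 : f 0 = 0)
    (hc : ∀ x y z, f (x + y + z) - f (x + y) - f (x + z) - f (y + z) + f x + f y + f z = 0)
    (n : ℕ) (a : G) : f (n • a) + f (-(n • a)) = (n : ℤ) ^ 2 * (f a + f (-a)) := by
  set g : G → ℤ := fun x => f x + f (-x) with hg
  have hg0 : g 0 = 0 := by simp [g, h0]
  have hgc : ∀ x y z, g (x + y + z) - g (x + y) - g (x + z) - g (y + z) + g x + g y + g z = 0 := by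
    intro x y z
    have h1 := hc x y z
    have h2 := hc (-x) (-y) (-z)
    have e1 : -(x + y + z) = -x + -y + -z := by abel
    have e2 : -(x + y) = -x + -y := by abel
    have e3 : -(x + z) = -x + -z := by abel
    have e4 : -(y + z) = -y + -z := by abel
    simp only [g, e1, e2, e3, e4]
    linarith
  have hgeven : ∀ x, g (-x) = g x := by
    intro x
    simp only [g, neg_neg]
    ring
  have hrec : ∀ m : ℕ, g ((m + 2) • a) = 2 * g ((m + 1) • a) - g (m • a) + 2 * g a := by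
    intro m
    have h := hgc ((m + 1) • a) a (-a)
    have e1 : (m + 1) • a + a + -a = (m + 1) • a := by abel
    have e2 : (m + 1) • a + a = (m + 2) • a := by rw [← succ_nsmul]
    have e3 : (m + 1) • a + -a = m • a := by rw [succ_nsmul]; abel
    have e4 : a + -a = 0 := by abel
    rw [e1, e2, e3, e4, hg0, hgeven] at h
    linarith
  have main : ∀ m : ℕ, g (m • a) = (m : ℤ) ^ 2 * g a ∧ g ((m + 1) • a) = ((m : ℤ) + 1) ^ 2 * g a := by
    intro m
    induction m with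
    | zero => simp [hg0]
    | succ m ih =>
      refine ⟨by have := ih.2; push_cast; exact this, ?_⟩
      have e : (m + 1 + 1) • a = (m + 2) • a := rfl
      rw [e, hrec, ih.1, ih.2]
      push_cast
      ring
  exact (main n).1

namespace TopAlg

section finrank

variable {k A B C : Type u} [Field k] [Field A] [Field B] [Field C] [Algebra k A] [Algebra k B]
  [Algebra k C]

/-- the degree of a field embedding -/
noncomputable def hdeg (φ : A →ₐ[k] B) : ℕ := Module.finrank φ.fieldRange B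

theorem hdeg_eq (φ : A →ₐ[k] B) :
    hdeg φ = @Module.finrank A B _ _ φ.toRingHom.toAlgebra.toModule := by
  let _ := φ.toRingHom.toAlgebra
  symm
  apply Algebra.finrank_eq_of_equiv_equiv (AlgEquiv.ofInjectiveField φ).toRingEquiv (RingEquiv.refl B)
  ext x
  rfl

theorem hdeg_comp (φ : A →ₐ[k] B) (ψ : B →ₐ[k] C) : hdeg (ψ.comp φ) = hdeg φ * hdeg ψ := by
  rw [hdeg_eq, hdeg_eq, hdeg_eq]
  let _ := φ.toRingHom.toAlgebra
  let _ := ψ.toRingHom.toAlgebra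
  let _ := (ψ.comp φ).toRingHom.toAlgebra
  have : IsScalarTower A B C := IsScalarTower.of_algebraMap_eq fun _ => rfl
  exact (Module.finrank_mul_finrank A B C).symm

theorem hdeg_equiv_comp (φ : A →ₐ[k] B) (e : B ≃ₐ[k] C) : hdeg (e.toAlgHom.comp φ) = hdeg φ := by
  rw [hdeg_eq, hdeg_eq]
  let _ := φ.toRingHom.toAlgebra
  let _ := (e.toAlgHom.comp φ).toRingHom.toAlgebra
  symm
  apply Algebra.finrank_eq_of_equiv_equiv (RingEquiv.refl A) e.toRingEquiv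
  ext x
  rfl

end finrank

omit [IsAlgClosed K] in
theorem emb_map {Ω Ω' : Type u} [Field Ω] [Algebra K Ω] [Field Ω'] [Algebra K Ω'] (j : Ω →ₐ[K] Ω')
    (x : M.Pt Ω) (hx : M.IsGeneric x) (hx' : M.IsGeneric (M.map j x)) :
    M.emb (M.map j x) hx' = j.comp (M.emb x hx) := by
  ext r
  have hmem : r ∈ M.O (M.ctr x) := by rw [hx, M.O_genPt]; trivial
  simp only [AVModel.emb_apply, AlgHom.comp_apply]
  exact M.ev_map j x r hmem

omit [IsAlgClosed K] in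
theorem isGeneric_map_iff {Ω Ω' : Type u} [Field Ω] [Algebra K Ω] [Field Ω'] [Algebra K Ω']
    (j : Ω →ₐ[K] Ω') (x : M.Pt Ω) : M.IsGeneric (M.map j x) ↔ M.IsGeneric x := by
  unfold AVModel.IsGeneric
  rw [M.ctr_map_field]

omit [IsAlgClosed K] in
theorem deg_eq_hdeg (Y : PField M) (h : M.IsGeneric Y.pt) : Y.deg = hdeg (M.emb Y.pt h) := by
  unfold PField.deg
  rw [dif_pos h]
  rfl

omit [IsAlgClosed K] in
theorem deg_eq_zero (Y : PField M) (h : ¬ M.IsGeneric Y.pt) : Y.deg = 0 := by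
  unfold PField.deg
  rw [dif_neg h]

omit [IsAlgClosed K] in
theorem dn_eq_hdeg (n : ℕ) (h : M.IsGeneric (n • M.eta)) : M.dn n = hdeg (M.emb (n • M.eta) h) := by
  unfold AVModel.dn
  rw [dif_pos h]
  rfl

omit [IsAlgClosed K] in
theorem dn_eq_zero (n : ℕ) (h : ¬ M.IsGeneric (n • M.eta)) : M.dn n = 0 := by
  unfold AVModel.dn
  rw [dif_neg h]

end TopAlg

open TopAlg

/-- (B2) -/
theorem deg_smul (n : ℕ) (Y : PField M) : (Y.smul n).deg = M.dn n * Y.deg := by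
  by_cases hy : M.IsGeneric Y.pt
  · have h1 : n • Y.pt = M.map (M.emb Y.pt hy) (n • M.eta) := by
      rw [M.map_nsmul, M.map_emb_eta]
    by_cases hn : M.IsGeneric (n • M.eta)
    · have h2 : M.IsGeneric (M.map (M.emb Y.pt hy) (n • M.eta)) := (isGeneric_map_iff _ _).mpr hn
      have h3 : M.IsGeneric (Y.smul n).pt := by
        change M.IsGeneric (n • Y.pt)
        rw [h1]; exact h2
      rw [deg_eq_hdeg _ h3, deg_eq_hdeg _ hy, dn_eq_hdeg n hn, ← hdeg_comp, ← emb_map _ _ hn h2]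
      have : ∀ (z z' : M.Pt Y.carrier) (hz : M.IsGeneric z) (hz' : M.IsGeneric z'), z = z' →
          hdeg (M.emb z hz) = hdeg (M.emb z' hz') := by
        rintro z z' hz hz' rfl; rfl
      exact this _ _ _ _ h1
    · have h3 : ¬ M.IsGeneric (Y.smul n).pt := by
        change ¬ M.IsGeneric (n • Y.pt)
        rw [h1, isGeneric_map_iff]; exact hn
      rw [deg_eq_zero _ h3, dn_eq_zero n hn, zero_mul]
  · have h3 : ¬ M.IsGeneric (Y.smul n).pt := by
      change ¬ M.IsGeneric (n • Y.pt)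
      intro h
      apply hy
      rw [M.isGeneric_iff_dim] at h ⊢
      apply le_antisymm (M.dim_le _)
      have h4 := StepA.trdeg_mono (M.fd_nsmul_le n Y.pt)
      rw [M.trdeg_fd, M.trdeg_fd, h] at h4
      exact_mod_cast h4
    rw [deg_eq_zero _ h3, deg_eq_zero _ hy, mul_zero]

theorem deg_congr {Y Y' : PField M} (h : Y.Equiv Y') : Y.deg = Y'.deg := by
  obtain ⟨e, he⟩ := h
  by_cases hy : M.IsGeneric Y.pt
  · have h2 : M.IsGeneric (M.map e.toAlgHom Y.pt) := (isGeneric_map_iff _ _).mpr hy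
    have hy' : M.IsGeneric Y'.pt := he ▸ h2
    rw [deg_eq_hdeg _ hy, deg_eq_hdeg _ hy', ← hdeg_equiv_comp _ e, ← emb_map _ _ hy h2]
    have : ∀ (z z' : M.Pt Y'.carrier) (hz : M.IsGeneric z) (hz' : M.IsGeneric z'), z = z' →
        hdeg (M.emb z hz) = hdeg (M.emb z' hz') := by
      rintro z z' hz hz' rfl; rfl
    exact this _ _ _ _ he
  · have hy' : ¬ M.IsGeneric Y'.pt := by
      rw [← he, isGeneric_map_iff]; exact hy
    rw [deg_eq_zero _ hy, deg_eq_zero _ hy']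



namespace TopAlg

section swap

variable (𝕐 FC FC' : Type u) [Field 𝕐] [Algebra K 𝕐] [Field FC] [Algebra K FC] [Field FC'] [Algebra K FC']

open TensorProduct

/-- `𝕐 → 𝕐(C)(C')` -/
noncomputable abbrev sw1 : 𝕐 →ₐ[K] CF K (CF K 𝕐 FC) FC' :=
  (CF.inl K (CF K 𝕐 FC) FC').comp (CF.inl K 𝕐 FC)

/-- `FC → 𝕐(C)(C')` -/
noncomputable abbrev sw2 : FC →ₐ[K] CF K (CF K 𝕐 FC) FC' :=
  (CF.inl K (CF K 𝕐 FC) FC').comp (CF.inr K 𝕐 FC)

theorem sw_inj1 : Function.Injective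
    (Algebra.TensorProduct.productMap (sw1 (K := K) 𝕐 FC FC') (CF.inr K (CF K 𝕐 FC) FC')) := by
  have := productMap_comp_injective (CF.inl K (CF K 𝕐 FC) FC') (CF.inr K (CF K 𝕐 FC) FC')
    (CF.inl K 𝕐 FC) (AlgHom.id K FC')
    productMap_inl_inr_injective (CF.inl K 𝕐 FC).toRingHom.injective Function.injective_id
  rwa [AlgHom.comp_id] at this

/-- the map `(𝕐 ⊗ FC) ⊗ FC' → 𝕐(C)(C')` -/
noncomputable def swν : (𝕐 ⊗[K] FC) ⊗[K] FC' →ₐ[K] CF K (CF K 𝕐 FC) FC' :=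
  Algebra.TensorProduct.productMap
    ((CF.inl K (CF K 𝕐 FC) FC').comp (IsScalarTower.toAlgHom K (𝕐 ⊗[K] FC) (CF K 𝕐 FC)))
    (CF.inr K (CF K 𝕐 FC) FC')

theorem swν_injective : Function.Injective (swν (K := K) 𝕐 FC FC') := by
  have := productMap_comp_injective (CF.inl K (CF K 𝕐 FC) FC') (CF.inr K (CF K 𝕐 FC) FC')
    (IsScalarTower.toAlgHom K (𝕐 ⊗[K] FC) (CF K 𝕐 FC)) (AlgHom.id K FC')
    productMap_inl_inr_injective (IsFractionRing.injective _ _) Function.injective_id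
  rwa [AlgHom.comp_id] at this

theorem swν_tmul (y : 𝕐) (c : FC) (c' : FC') :
    swν (K := K) 𝕐 FC FC' ((y ⊗ₜ c) ⊗ₜ c')
      = sw1 𝕐 FC FC' y * sw2 𝕐 FC FC' c * CF.inr K (CF K 𝕐 FC) FC' c' := by
  have e2 : (IsScalarTower.toAlgHom K (𝕐 ⊗[K] FC) (CF K 𝕐 FC)) (y ⊗ₜ[K] c)
      = CF.inl K 𝕐 FC y * CF.inr K 𝕐 FC c := CF.ofTensor_tmul y c
  rw [swν, Algebra.TensorProduct.productMap_apply_tmul, AlgHom.comp_apply, e2, map_mul]
  rfl

variable {𝕐 FC FC'}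

theorem sw_inj2 (i : CF K 𝕐 FC' →ₐ[K] CF K (CF K 𝕐 FC) FC')
    (hi1 : i.comp (CF.inl K 𝕐 FC') = sw1 𝕐 FC FC')
    (hi2 : i.comp (CF.inr K 𝕐 FC') = CF.inr K (CF K 𝕐 FC) FC') :
    Function.Injective (Algebra.TensorProduct.productMap i (sw2 (K := K) 𝕐 FC FC')) := by
  apply productMap_injective_of_fractionRing (R := 𝕐 ⊗[K] FC')
  have hcomp : (Algebra.TensorProduct.productMap
      (i.comp (IsScalarTower.toAlgHom K (𝕐 ⊗[K] FC') (CF K 𝕐 FC'))) (sw2 𝕐 FC FC')).toLinearMap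
      = (swν (K := K) 𝕐 FC FC').toLinearMap ∘ₗ (TensorProduct.rightComm K 𝕐 FC' FC).toLinearMap := by
    apply TensorProduct.ext_threefold
    intro y c' c
    have e1 : (IsScalarTower.toAlgHom K (𝕐 ⊗[K] FC') (CF K 𝕐 FC')) (y ⊗ₜ[K] c')
        = CF.inl K 𝕐 FC' y * CF.inr K 𝕐 FC' c' := CF.ofTensor_tmul y c'
    have e3 : i (CF.inl K 𝕐 FC' y) = sw1 𝕐 FC FC' y :=
      congrArg (fun f : 𝕐 →ₐ[K] CF K (CF K 𝕐 FC) FC' => f y) hi1
    have e4 : i (CF.inr K 𝕐 FC' c') = CF.inr K (CF K 𝕐 FC) FC' c' :=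
      congrArg (fun f : FC' →ₐ[K] CF K (CF K 𝕐 FC) FC' => f c') hi2
    rw [LinearMap.comp_apply, AlgHom.toLinearMap_apply, AlgHom.toLinearMap_apply,
      LinearEquiv.coe_coe, TensorProduct.rightComm_tmul, swν_tmul,
      Algebra.TensorProduct.productMap_apply_tmul, AlgHom.comp_apply, e1, map_mul, e3, e4]
    ring
  intro a b hab
  have h1 : ∀ z, Algebra.TensorProduct.productMap
      (i.comp (IsScalarTower.toAlgHom K (𝕐 ⊗[K] FC') (CF K 𝕐 FC'))) (sw2 𝕐 FC FC') z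
      = swν (K := K) 𝕐 FC FC' (TensorProduct.rightComm K 𝕐 FC' FC z) := fun z =>
    congrArg (fun f => f z) hcomp
  rw [h1, h1] at hab
  exact (TensorProduct.rightComm K 𝕐 FC' FC).injective (swν_injective 𝕐 FC FC' hab)

theorem sw_gen (i : CF K 𝕐 FC' →ₐ[K] CF K (CF K 𝕐 FC) FC')
    (hi1 : i.comp (CF.inl K 𝕐 FC') = sw1 𝕐 FC FC')
    (hi2 : i.comp (CF.inr K 𝕐 FC') = CF.inr K (CF K 𝕐 FC) FC') :
    i.fieldRange ⊔ (sw2 (K := K) 𝕐 FC FC').fieldRange = ⊤ := by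
  rw [eq_top_iff, ← StepA.fieldRange_inl_sup_inr]
  apply sup_le
  · have h1 : (CF.inl K (CF K 𝕐 FC) FC').fieldRange
        = ((CF.inl K 𝕐 FC).fieldRange ⊔ (CF.inr K 𝕐 FC).fieldRange).map
          (CF.inl K (CF K 𝕐 FC) FC') := by
      rw [StepA.fieldRange_inl_sup_inr, AlgHom.fieldRange_eq_map]
    rw [h1, IntermediateField.map_sup]
    apply sup_le
    · refine le_trans ?_ le_sup_left
      rintro _ ⟨_, ⟨y, rfl⟩, rfl⟩
      exact ⟨CF.inl K 𝕐 FC' y, congrArg (fun f : 𝕐 →ₐ[K] CF K (CF K 𝕐 FC) FC' => f y) hi1⟩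
    · refine le_trans ?_ le_sup_right
      rintro _ ⟨_, ⟨c, rfl⟩, rfl⟩
      exact ⟨c, rfl⟩
  · refine le_trans ?_ le_sup_left
    rintro _ ⟨c', rfl⟩
    exact ⟨CF.inr K 𝕐 FC' c', congrArg (fun f : FC' →ₐ[K] CF K (CF K 𝕐 FC) FC' => f c') hi2⟩

variable (𝕐 FC FC')

theorem exists_swap : ∃ ε : CF K (CF K 𝕐 FC') FC ≃ₐ[K] CF K (CF K 𝕐 FC) FC',
    (ε.toAlgHom.comp (CF.inl K (CF K 𝕐 FC') FC)).comp (CF.inl K 𝕐 FC') = sw1 𝕐 FC FC' ∧
    (ε.toAlgHom.comp (CF.inl K (CF K 𝕐 FC') FC)).comp (CF.inr K 𝕐 FC')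
      = CF.inr K (CF K 𝕐 FC) FC' ∧
    ε.toAlgHom.comp (CF.inr K (CF K 𝕐 FC') FC) = sw2 𝕐 FC FC' := by
  obtain ⟨i, hi1, hi2⟩ := CF.exists_lift _ _ (sw_inj1 (K := K) 𝕐 FC FC')
  obtain ⟨ε, h1, h2⟩ := exists_equiv_CF i _ (sw_inj2 i hi1 hi2) (sw_gen i hi1 hi2)
  exact ⟨ε, by rw [h1, hi1], by rw [h1, hi2], h2⟩

variable {𝕐 FC FC'}

theorem swap_pt (ε : CF K (CF K 𝕐 FC') FC ≃ₐ[K] CF K (CF K 𝕐 FC) FC')
    (h1 : (ε.toAlgHom.comp (CF.inl K (CF K 𝕐 FC') FC)).comp (CF.inl K 𝕐 FC') = sw1 𝕐 FC FC')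
    (h2 : (ε.toAlgHom.comp (CF.inl K (CF K 𝕐 FC') FC)).comp (CF.inr K 𝕐 FC')
      = CF.inr K (CF K 𝕐 FC) FC')
    (h3 : ε.toAlgHom.comp (CF.inr K (CF K 𝕐 FC') FC) = sw2 𝕐 FC FC')
    (y : M.Pt 𝕐) (α : M.Pt FC) (α' : M.Pt FC') :
    M.map ε.toAlgHom (M.map (CF.inl K (CF K 𝕐 FC') FC)
      (M.map (CF.inl K 𝕐 FC') y + M.map (CF.inr K 𝕐 FC') α')
        + M.map (CF.inr K (CF K 𝕐 FC') FC) α)
    = M.map (CF.inl K (CF K 𝕐 FC) FC')
        (M.map (CF.inl K 𝕐 FC) y + M.map (CF.inr K 𝕐 FC) α)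
      + M.map (CF.inr K (CF K 𝕐 FC) FC') α' := by
  have e1 : M.map ε.toAlgHom (M.map (CF.inl K (CF K 𝕐 FC') FC) (M.map (CF.inl K 𝕐 FC') y))
      = M.map (CF.inl K (CF K 𝕐 FC) FC') (M.map (CF.inl K 𝕐 FC) y) := by
    rw [← M.map_comp, ← M.map_comp, h1, M.map_comp]
  have e2 : M.map ε.toAlgHom (M.map (CF.inl K (CF K 𝕐 FC') FC) (M.map (CF.inr K 𝕐 FC') α'))
      = M.map (CF.inr K (CF K 𝕐 FC) FC') α' := by
    rw [← M.map_comp, ← M.map_comp, h2]
  have e3 : M.map ε.toAlgHom (M.map (CF.inr K (CF K 𝕐 FC') FC) α)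
      = M.map (CF.inl K (CF K 𝕐 FC) FC') (M.map (CF.inr K 𝕐 FC) α) := by
    rw [← M.map_comp, h3, M.map_comp]
  rw [M.map_add, M.map_add, M.map_add, M.map_add, e1, e2, e3]
  abel

end swap

end TopAlg

open TopAlg

theorem star_congr {Y Y' : PField M} (h : Y.Equiv Y') {FC : Type u} [Field FC] [Algebra K FC]
    [FF1 K FC] (α : M.Pt FC) : (star α Y).Equiv (star α Y') := by
  obtain ⟨e, he⟩ := h
  have hinj : Function.Injective (Algebra.TensorProduct.productMap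
      ((CF.inl K Y'.carrier FC).comp e.toAlgHom) ((CF.inr K Y'.carrier FC).comp (AlgHom.id K FC))) :=
    productMap_comp_injective _ _ _ _ productMap_inl_inr_injective e.injective Function.injective_id
  rw [AlgHom.comp_id] at hinj
  have hgen : ((CF.inl K Y'.carrier FC).comp e.toAlgHom).fieldRange
      ⊔ (CF.inr K Y'.carrier FC).fieldRange = ⊤ := by
    rw [eq_top_iff, ← StepA.fieldRange_inl_sup_inr]
    apply sup_le_sup_right
    rintro _ ⟨a, rfl⟩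
    exact ⟨e.symm a, by simp⟩
  obtain ⟨ε, h1, h2⟩ := exists_equiv_CF _ _ hinj hgen
  refine ⟨ε, ?_⟩
  change M.map ε.toAlgHom (M.map (CF.inl K Y.carrier FC) Y.pt + M.map (CF.inr K Y.carrier FC) α)
    = M.map (CF.inl K Y'.carrier FC) Y'.pt + M.map (CF.inr K Y'.carrier FC) α
  rw [M.map_add, ← M.map_comp, ← M.map_comp, h1, h2, M.map_comp, he]

/-- swap: `𝕐(C)(C') ≃ 𝕐(C')(C)` -/
theorem star_swap (Y : PField M) {FC FC' : Type u} [Field FC] [Algebra K FC] [FF1 K FC]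
    [Field FC'] [Algebra K FC'] [FF1 K FC'] (α : M.Pt FC) (α' : M.Pt FC') :
    (star α (star α' Y)).Equiv (star α' (star α Y)) := by
  obtain ⟨ε, h1, h2, h3⟩ := exists_swap (K := K) Y.carrier FC FC'
  exact ⟨ε, swap_pt ε h1 h2 h3 Y.pt α α'⟩

theorem star_smul (n : ℕ) (Y : PField M) {FC : Type u} [Field FC] [Algebra K FC] [FF1 K FC]
    (α : M.Pt FC) : star (n • α) (Y.smul n) = (star α Y).smul n := by
  unfold PField.star PField.smul
  simp only [M.map_nsmul, nsmul_add]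


end Fermat.Agent.S26
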