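import Fermat.Agent.S26.Top.Defs
import Fermat.Agent.S26.Curve.CFExtra
import Fermat.Agent.S26.Model.Taut
import Fermat.Agent.S26.Alg.TrdegSup
import Fermat.Agent.S26.Square

/-! # S26 / M10 : existence of `g` curves through the origin generating `A` (B1). -/

set_option autoImplicit false

universe u

namespace Fermat.Agent.S26

open AlgebraicCurve IsLocalRing PField

variable {K : Type u} [Field K] [IsAlgClosed K] {F : Type u} [Field F] [Algebra K F] (M : AVModel K F)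

namespace Curves

open TensorProduct

/-- `y + η` is generic in `A(𝕐(A))` -/
theorem isGeneric_inl_add_inr_eta {𝕐 : Type u} [Field 𝕐] [Algebra K 𝕐] [Algebra.EssFiniteType K 𝕐]
    (y : M.Pt 𝕐) : M.IsGeneric (M.map (CF.inl K 𝕐 F) y + M.map (CF.inr K 𝕐 F) M.eta) := by
  set z := M.map (CF.inl K 𝕐 F) y + M.map (CF.inr K 𝕐 F) M.eta with hz
  rw [M.isGeneric_iff_dim]
  apply le_antisymm (M.dim_le _)
  have h1 : M.fd (M.map (CF.inr K 𝕐 F) M.eta) = (CF.inr K 𝕐 F).fieldRange := by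
    rw [M.fd_eq_fieldRange _ (M.isGeneric_map_eta _), M.emb_map_eta]
  have h2 : M.fd (M.map (CF.inl K 𝕐 F) y) ≤ (CF.inl K 𝕐 F).fieldRange := M.fd_map_le _ _
  have h3 : (CF.inl K 𝕐 F).fieldRange ⊔ M.fd z = ⊤ := by
    rw [eq_top_iff, ← StepA.fieldRange_inl_sup_inr]
    apply sup_le le_sup_left
    rw [← h1]
    have : M.map (CF.inr K 𝕐 F) M.eta = z - M.map (CF.inl K 𝕐 F) y := by rw [hz]; abel
    rw [this]
    exact (M.fd_sub_le _ _).trans (sup_le le_sup_right (h2.trans le_sup_left))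
  have h4 := TrdegSup.trdeg_le_of_sup_eq_top _ _ h3
  have h6 : Algebra.trdeg K (CF.inl K 𝕐 F).fieldRange = Algebra.trdeg K 𝕐 :=
    (AlgEquiv.ofInjectiveField (CF.inl K 𝕐 F)).trdeg_eq.symm
  rw [trdeg_CF, M.trdeg_eq, M.trdeg_fd, h6] at h4
  obtain ⟨n, hn⟩ := Cardinal.lt_aleph0.mp (trdeg_lt_aleph0 K 𝕐)
  rw [hn] at h4
  have h5 : n + M.g ≤ n + M.dim (M.ctr z) := by exact_mod_cast h4
  omega

omit [IsAlgClosed K] in
/-- for `u ≠ 0` in `𝕐 ⊗ R` there is `h ≠ 0` in `R` such that `u` survives every `K`-linear map `π`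
with `π h ≠ 0` -/
theorem exists_ne_zero_of_tensor {𝕐 R : Type u} [Field 𝕐] [Algebra K 𝕐] [AddCommGroup R] [Module K R]
    (x : 𝕐 ⊗[K] R) (hx : x ≠ 0) :
    ∃ h : R, h ≠ 0 ∧ ∀ (N : Type u) [AddCommGroup N] [Module K N] (π : R →ₗ[K] N), π h ≠ 0 →
      LinearMap.lTensor 𝕐 π x ≠ 0 := by
  classical
  let ℬ := Module.Basis.ofVectorSpace K 𝕐
  have h1 : TensorProduct.equivFinsuppOfBasisLeft ℬ x ≠ 0 := by simpa using hx
  obtain ⟨i, hi⟩ := Finsupp.ne_iff.mp h1
  refine ⟨TensorProduct.equivFinsuppOfBasisLeft ℬ x i, hi, fun N _ _ π hπ h0 => hπ ?_⟩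
  have nat : ∀ w : 𝕐 ⊗[K] R, TensorProduct.equivFinsuppOfBasisLeft ℬ (LinearMap.lTensor 𝕐 π w) i
      = π (TensorProduct.equivFinsuppOfBasisLeft ℬ w i) := by
    intro w
    induction w using TensorProduct.induction_on with
    | zero => simp
    | tmul a b => simp
    | add a b ha hb => simp only [map_add, Finsupp.add_apply, ha, hb]
  rw [← nat, h0]
  simp


section chart

omit [IsAlgClosed K]

variable {M} {R₀ : Subalgebra K F} {p : Ideal R₀} (hp : p.IsPrime) {b : M.X}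
  (hb : ∀ r : F, r ∈ M.O b ↔ ∃ s t : R₀, t ∉ p ∧ r * t = s)

include hp hb

theorem chart_le : R₀ ≤ M.O b := fun r hr =>
  (hb r).mpr ⟨⟨r, hr⟩, 1, fun h1 => hp.ne_top ((Ideal.eq_top_iff_one p).mpr h1), by simp⟩

theorem chart_isUnit_iff (t : R₀) : IsUnit (Subalgebra.inclusion (chart_le hp hb) t) ↔ t ∉ p := by
  rw [AVModel.isUnit_subalgebra_iff]
  change ((t : F) ≠ 0 ∧ (t : F)⁻¹ ∈ M.O b) ↔ _
  constructor
  · rintro ⟨h0, hinv⟩ htp
    obtain ⟨s', t', ht', h⟩ := (hb _).mp hinv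
    apply ht'
    have : t' = s' * t := by
      apply Subtype.ext
      push_cast
      rw [← h]
      field_simp
    rw [this]
    exact p.mul_mem_left _ htp
  · intro ht
    have ht0 : (t : F) ≠ 0 := by
      intro h0
      apply ht
      have : t = 0 := Subtype.ext h0
      rw [this]; exact zero_mem p
    exact ⟨ht0, (hb _).mpr ⟨1, t, ht, by simp [ht0]⟩⟩

theorem chart_trdeg : Algebra.trdeg K (ResidueField (M.O b)) = Algebra.trdeg K (R₀ ⧸ p) := by
  let f₀ : R₀ →ₐ[K] ResidueField (M.O b) :=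
    (M.resHom b).comp (Subalgebra.inclusion (chart_le hp hb))
  have hf₀ : ∀ t : R₀, f₀ t = 0 ↔ t ∈ p := by
    intro t
    change M.resHom b (Subalgebra.inclusion (chart_le hp hb) t) = 0 ↔ _
    rw [M.resHom_eq_zero_iff, chart_isUnit_iff hp hb, not_not]
  let f : R₀ ⧸ p →ₐ[K] ResidueField (M.O b) := Ideal.Quotient.liftₐ p f₀ (fun t ht => (hf₀ t).mpr ht)
  have hfmk : ∀ t : R₀, f (Ideal.Quotient.mk p t) = f₀ t := fun t => rfl
  apply TrdegSup.trdeg_eq_of_fraction f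
  · rw [injective_iff_map_eq_zero]
    intro x hx
    obtain ⟨t, rfl⟩ := Ideal.Quotient.mk_surjective x
    rw [hfmk, hf₀] at hx
    exact Ideal.Quotient.eq_zero_iff_mem.mpr hx
  · intro x
    obtain ⟨r, rfl⟩ := M.resHom_surjective b x
    obtain ⟨s, t, ht, hrt⟩ := (hb r).mp r.2
    refine ⟨Ideal.Quotient.mk p s, Ideal.Quotient.mk p t, ?_, ?_⟩
    · intro h0
      exact ht (Ideal.Quotient.eq_zero_iff_mem.mp h0)
    · rw [hfmk, hfmk]
      change M.resHom b r * M.resHom b (Subalgebra.inclusion (chart_le hp hb) t)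
        = M.resHom b (Subalgebra.inclusion (chart_le hp hb) s)
      rw [← map_mul]
      congr 1
      exact Subtype.ext hrt

/-- `F` is the fraction field of the chart ring -/
theorem chart_fraction (r : F) : ∃ s t : R₀, t ≠ 0 ∧ r * t = s := by
  obtain ⟨s, t, ht, hrt⟩ := M.exists_fraction b r
  obtain ⟨s₁, t₁, ht₁, hs⟩ := (hb s).mp s.2
  obtain ⟨s₂, t₂, ht₂, htt⟩ := (hb t).mp t.2
  have hne : ∀ t' : R₀, t' ∉ p → t' ≠ 0 := by
    rintro t' ht' rfl
    exact ht' (zero_mem p)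
  have ht0 : (t : F) ≠ 0 := fun h0 => ht (Subtype.ext h0)
  have hs₂ : s₂ ≠ 0 := by
    rintro rfl
    have h2 : (t₂ : F) ≠ 0 := fun h0 => hne t₂ ht₂ (Subtype.ext h0)
    exact mul_ne_zero ht0 h2 (by simpa using htt)
  refine ⟨s₁ * t₂, s₂ * t₁, mul_ne_zero hs₂ (hne t₁ ht₁), ?_⟩
  push_cast
  rw [← htt, ← hs, ← hrt]; ring

theorem chart_trdeg_ring : Algebra.trdeg K R₀ = M.g := by
  rw [← M.trdeg_eq]
  exact (TrdegSup.trdeg_eq_of_fraction R₀.val Subtype.val_injective (chart_fraction hp hb)).symm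

end chart

/-- a curve through the origin avoiding the hypersurface `h = 0` -/
theorem exists_curve_point (hg : 1 ≤ M.g) (h : M.O (M.ctr (0 : M.Pt K))) (hh : h ≠ 0) :
    ∃ b : M.X, M.O (M.ctr (0 : M.Pt K)) ≤ M.O b ∧ M.dim b = 1 ∧ (h : F)⁻¹ ∈ M.O b := by
  obtain ⟨R₀, hfg, hprime, q₀, hq₀, hqo⟩ := M.exists_chart (M.ctr (0 : M.Pt K))
  have hft : Algebra.FiniteType K R₀ := (Subalgebra.fg_iff_finiteType R₀).mp hfg
  -- `q₀` is maximal
  let φ : R₀ →ₐ[K] K := (M.evHom (0 : M.Pt K)).comp (Subalgebra.inclusion (chart_le hq₀ hqo))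
  have hφ : RingHom.ker φ.toRingHom = q₀ := by
    ext t
    rw [RingHom.mem_ker]
    change M.evHom (0 : M.Pt K) (Subalgebra.inclusion (chart_le hq₀ hqo) t) = 0 ↔ _
    constructor
    · intro h0
      by_contra ht
      have hu := ((chart_isUnit_iff hq₀ hqo t).mpr ht).map (M.evHom (0 : M.Pt K))
      rw [h0] at hu
      exact not_isUnit_zero hu
    · intro ht
      by_contra h0
      have hu := (M.isLocalHom_evHom (0 : M.Pt K)).map_nonunit _ (isUnit_iff_ne_zero.mpr h0)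
      exact (chart_isUnit_iff hq₀ hqo t).mp hu ht
  have hmax : q₀.IsMaximal := by
    rw [← hφ]
    apply RingHom.ker_isMaximal_of_surjective
    intro c
    exact ⟨algebraMap K R₀ c, φ.commutes c⟩
  obtain ⟨n, d, hd, hnd⟩ := (hqo h).mp h.2
  have hh0 : (h : F) ≠ 0 := fun h0 => hh (Subtype.ext h0)
  have hd0 : (d : F) ≠ 0 := by
    intro h0
    apply hd
    have : d = 0 := Subtype.ext h0
    rw [this]; exact zero_mem q₀
  have hn : n ≠ 0 := by
    rintro rfl
    exact mul_ne_zero hh0 hd0 (by simpa using hnd)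
  have htr : (1 : Cardinal) ≤ Algebra.trdeg K R₀ := by
    rw [chart_trdeg_ring hq₀ hqo]
    exact_mod_cast hg
  obtain ⟨p, hp, hple, hnp, hp1⟩ := exists_prime_le_trdeg_eq_one q₀ n hn htr
  obtain ⟨b, hb⟩ := hprime p hp
  refine ⟨b, ?_, ?_, ?_⟩
  · intro r hr
    obtain ⟨s, t, ht, hrt⟩ := (hqo r).mp hr
    exact (hb r).mpr ⟨s, t, fun htp => ht (hple htp), hrt⟩
  · have h1 := chart_trdeg hp hb
    rw [hp1, M.trdeg_residueField] at h1
    exact_mod_cast h1
  · refine (hb _).mpr ⟨d, n, hnp, ?_⟩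
    rw [← hnd]
    field_simp


section loc

variable {𝕐 : Type u} [Field 𝕐] [Algebra K 𝕐] (o : M.X)

/-- `𝕐 ⊗ O_o → 𝕐(A)` -/
noncomputable def theta (𝕐 : Type u) [Field 𝕐] [Algebra K 𝕐] (o : M.X) :
    𝕐 ⊗[K] M.O o →ₐ[K] CF K 𝕐 F :=
  Algebra.TensorProduct.productMap (CF.inl K 𝕐 F) ((CF.inr K 𝕐 F).comp (M.O o).val)

theorem theta_injective : Function.Injective (theta M 𝕐 o) := by
  have := TopAlg.productMap_comp_injective (CF.inl K 𝕐 F) (CF.inr K 𝕐 F) (AlgHom.id K 𝕐) (M.O o).val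
    TopAlg.productMap_inl_inr_injective Function.injective_id Subtype.val_injective
  exact this

/-- The point `i(y) + π(taut)` of `A(Ω)` extends to the local ring `B` of `𝕐 ⊗ O_o` at the kernel of
`(i, π)`; consequence for the evaluation maps. -/
theorem exists_fraction_ev {Ω : Type u} [Field Ω] [Algebra K Ω] (y : M.Pt 𝕐) (i : 𝕐 →ₐ[K] Ω)
    (π : M.O o →ₐ[K] Ω) (r : F) (hr : r ∈ M.O (M.ctr (M.map i y + M.map π (M.taut o)))) :
    ∃ u w : 𝕐 ⊗[K] M.O o, Algebra.TensorProduct.productMap i π w ≠ 0 ∧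
      M.ev (M.map (CF.inl K 𝕐 F) y + M.map (CF.inr K 𝕐 F) M.eta) r * theta M 𝕐 o w = theta M 𝕐 o u ∧
      M.ev (M.map i y + M.map π (M.taut o)) r * Algebra.TensorProduct.productMap i π w
        = Algebra.TensorProduct.productMap i π u := by
  classical
  let T := 𝕐 ⊗[K] M.O o
  let ρ₀ : T →ₐ[K] Ω := Algebra.TensorProduct.productMap i π
  let q : Ideal T := RingHom.ker ρ₀.toRingHom
  have hq : q.IsPrime := RingHom.ker_isPrime _
  let B := Localization.AtPrime q
  let ιB : T →ₐ[K] B := IsScalarTower.toAlgHom K T B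
  have hρu : ∀ t : q.primeCompl, IsUnit (ρ₀ t) := by
    intro t
    exact isUnit_iff_ne_zero.mpr (fun h0 => t.2 h0)
  have hθu : ∀ t : q.primeCompl, IsUnit (theta M 𝕐 o t) := by
    intro t
    refine isUnit_iff_ne_zero.mpr (fun h0 => t.2 ?_)
    have : (t : T) = 0 := theta_injective M o (by rw [h0, map_zero])
    rw [this]
    exact zero_mem q
  let ρ : B →ₐ[K] Ω := IsLocalization.liftAlgHom (M := q.primeCompl) (f := ρ₀) hρu
  let ε : B →ₐ[K] CF K 𝕐 F := IsLocalization.liftAlgHom (M := q.primeCompl) (f := theta M 𝕐 o) hθu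
  have hρι : ∀ t : T, ρ (ιB t) = ρ₀ t := fun t => IsLocalization.lift_eq _ t
  have hει : ∀ t : T, ε (ιB t) = theta M 𝕐 o t := fun t => IsLocalization.lift_eq _ t
  let P : M.Pt B := M.map (ιB.comp Algebra.TensorProduct.includeLeft) y
    + M.map (ιB.comp Algebra.TensorProduct.includeRight) (M.taut o)
  have hρP : M.map ρ P = M.map i y + M.map π (M.taut o) := by
    rw [M.map_add, ← M.map_comp, ← M.map_comp]
    congr 2
    · ext a
      simp only [AlgHom.comp_apply]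
      rw [hρι]
      exact Algebra.TensorProduct.productMap_left_apply i π a
    · ext a
      simp only [AlgHom.comp_apply]
      rw [hρι]
      exact Algebra.TensorProduct.productMap_right_apply i π a
  have hεP : M.map ε P = M.map (CF.inl K 𝕐 F) y + M.map (CF.inr K 𝕐 F) M.eta := by
    rw [M.map_add, ← M.map_comp, ← M.map_comp, ← M.map_val_taut o, ← M.map_comp]
    congr 2
    · ext a
      simp only [AlgHom.comp_apply]
      rw [hει]
      exact Algebra.TensorProduct.productMap_left_apply _ _ a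
    · ext a
      simp only [AlgHom.comp_apply]
      rw [hει]
      exact Algebra.TensorProduct.productMap_right_apply _ _ a
  have hloc : ∀ b : B, IsUnit (ρ b) → IsUnit b := by
    intro b hb
    obtain ⟨t, s, rfl⟩ := IsLocalization.exists_mk'_eq q.primeCompl b
    rw [IsLocalization.AtPrime.isUnit_mk'_iff B q]
    intro htq
    apply hb.ne_zero
    have h1 : ρ (IsLocalization.mk' B t s) * ρ₀ s = ρ₀ t := by
      rw [← hρι, ← hρι, ← map_mul]
      congr 1
      exact IsLocalization.mk'_spec B t s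
    have h2 : ρ₀ t = 0 := htq
    rw [h2] at h1
    exact (mul_eq_zero.mp h1).resolve_right (hρu s).ne_zero
  have hctr : M.ctr (M.map ρ P) = M.ctr P := M.ctr_map_of_isLocalHom ρ hloc P
  rw [← hρP, hctr] at hr
  obtain ⟨⟨u, w⟩, huw⟩ := IsLocalization.surj q.primeCompl (M.ev P r)
  refine ⟨u, w, (hρu w).ne_zero, ?_, ?_⟩
  · rw [← hεP, M.ev_map ε P r hr, ← hει, ← hει, ← map_mul]
    congr 1
  · rw [← hρP, M.ev_map ρ P r hr]
    change ρ (M.ev P r) * ρ₀ w = ρ₀ u
    rw [← hρι, ← hρι, ← map_mul]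
    congr 1

end loc


/-! ### the step -/

omit [IsAlgClosed K] in
theorem exists_nonunit {a : M.X} (ha : a ≠ M.genPt) : ∃ s : M.O a, s ≠ 0 ∧ ¬ IsUnit s := by
  by_contra hcon
  push Not at hcon
  apply ha
  apply M.O_injective
  rw [M.O_genPt, eq_top_iff]
  intro r _
  obtain ⟨s, t, ht, hrt⟩ := M.exists_fraction a r
  have hu := (AVModel.isUnit_subalgebra_iff t).mp (hcon t ht)
  have : r = s * (t : F)⁻¹ := by
    rw [← hrt]
    field_simp [hu.1]
  rw [this]
  exact (M.O a).mul_mem s.2 hu.2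

/-- a place of `FC` dominating the image of a local ring -/
theorem exists_place_dominating {FC : Type u} [Field FC] [Algebra K FC] [FF1 K FC] {R : Type u}
    [CommRing R] [IsLocalRing R] [Algebra K R] (π : R →ₐ[K] FC) (x : R) (hx : ¬ IsUnit x)
    (hπx : π x ≠ 0) :
    ∃ (c : Place K FC) (π' : R →ₐ[K] c.toValuationSubring),
      (IsScalarTower.toAlgHom K c.toValuationSubring FC).comp π' = π ∧
      ∀ r, ¬ IsUnit r → ¬ IsUnit (π' r) := by
  obtain ⟨A, h, hloc⟩ := IsLocalRing.exists_factor_valuationRing π.toRingHom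
  have hΩ : ∀ a : K, algebraMap K FC a ∈ A := fun a => by
    have := h (algebraMap K R a)
    simpa using this
  have hA : A ≠ ⊤ := by
    rintro rfl
    apply hx
    apply hloc.map_nonunit
    exact isUnit_iff_exists_inv.mpr ⟨⟨(π x)⁻¹, trivial⟩, Subtype.ext (mul_inv_cancel₀ hπx)⟩
  obtain ⟨c, rfl⟩ := exists_place_of_valuationSubring A hΩ hA
  refine ⟨c,
    { toFun := fun r => ⟨π r, h r⟩
      map_one' := Subtype.ext (map_one π)
      map_mul' := fun a b => Subtype.ext (map_mul π _ _)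
      map_zero' := Subtype.ext (map_zero π)
      map_add' := fun a b => Subtype.ext (map_add π _ _)
      commutes' := fun k => Subtype.ext (π.commutes k) }, ?_, ?_⟩
  · ext r; rfl
  · intro r hr hu
    exact hr (hloc.map_nonunit r hu)

/-- a curve through the origin on which a given nonzero function `h₀` does not vanish identically -/
theorem exists_curve (hg : 1 ≤ M.g) (h₀ : M.O (M.ctr (0 : M.Pt K))) (hh : h₀ ≠ 0) :
    ∃ (c : PCurve M) (π : M.O (M.ctr (0 : M.Pt K)) →ₐ[K] c.FC),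
      c.α = M.map π (M.taut _) ∧ π h₀ ≠ 0 := by
  obtain ⟨b, hob, hdim, hinv⟩ := exists_curve_point M hg h₀ hh
  have hff : FF1 K (ResidueField (M.O b)) :=
    ⟨inferInstance, by rw [M.trdeg_residueField, hdim]; rfl⟩
  let π : M.O (M.ctr (0 : M.Pt K)) →ₐ[K] ResidueField (M.O b) :=
    (M.resHom b).comp (Subalgebra.inclusion hob)
  have hπ : ∀ r : M.O (M.ctr (0 : M.Pt K)), π r ≠ 0 ↔ ((r : F) ≠ 0 ∧ (r : F)⁻¹ ∈ M.O b) := by
    intro r
    change M.resHom b (Subalgebra.inclusion hob r) ≠ 0 ↔ _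
    rw [Ne, M.resHom_eq_zero_iff, not_not, AVModel.isUnit_subalgebra_iff]
    rfl
  have hπh : π h₀ ≠ 0 := (hπ h₀).mpr ⟨fun h0 => hh (Subtype.ext h0), hinv⟩
  -- a nonunit of `O_o` which is a unit on the curve
  obtain ⟨x, hx, hπx⟩ : ∃ x : M.O (M.ctr (0 : M.Pt K)), ¬ IsUnit x ∧ π x ≠ 0 := by
    by_contra hcon
    push Not at hcon
    have hne : M.ctr (0 : M.Pt K) ≠ b := by
      intro e
      have := M.dim_ctr_zero
      rw [e, hdim] at this
      exact one_ne_zero this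
    apply hne
    apply M.eq_of_le_of_dominates hob
    intro r hr hrinv
    by_cases hr0 : r = 0
    · rw [hr0, inv_zero]; exact zero_mem _
    by_contra hni
    have h1 : ¬ IsUnit (⟨r, hr⟩ : M.O (M.ctr (0 : M.Pt K))) := by
      rw [AVModel.isUnit_subalgebra_iff]
      exact fun h => hni h.2
    exact (hπ ⟨r, hr⟩).mpr ⟨hr0, hrinv⟩ (hcon _ h1)
  obtain ⟨c₀, π', hπ', hloc⟩ := exists_place_dominating π x hx hπx
  refine ⟨⟨ResidueField (M.O b), M.map π (M.taut _), c₀, ?_⟩, π, rfl, hπh⟩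
  rw [← hπ', M.red_map_comp]
  apply M.map_taut_eq_zero
  intro r hr
  change IsLocalRing.residue _ (π' r) = 0
  rw [IsLocalRing.residue_eq_zero_iff]
  exact hloc r hr

/-- `y` is a specialisation of `y + α` -/
theorem le_ctr_add (c : PCurve M) {𝕐 : Type u} [Field 𝕐] [Algebra K 𝕐] (y : M.Pt 𝕐) :
    M.O (M.ctr y) ≤ M.O (M.ctr (M.bc 𝕐 (CF K 𝕐 c.FC) y + M.map (CF.inr K 𝕐 c.FC) c.α)) := by
  let v : Place K (CF K 𝕐 c.FC) := (constPlace 𝕐 c.c₀).restrictConst K
  have h1 : M.red v (M.bc 𝕐 (CF K 𝕐 c.FC) y + M.map (CF.inr K 𝕐 c.FC) c.α)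
      = M.red v (M.bc 𝕐 (CF K 𝕐 c.FC) y) := by
    rw [M.red_add, M.red_constPlace_map_inr c.c₀ c.α c.red_eq, add_zero]
  have h2 : M.ctr (M.red v (M.bc 𝕐 (CF K 𝕐 c.FC) y + M.map (CF.inr K 𝕐 c.FC) c.α)) = M.ctr y := by
    rw [h1, M.red_bc_restrictConst]
    exact M.ctr_map_field _ _
  rw [← h2, M.ctr_red]
  exact M.O_cen_le v _

omit [IsAlgClosed K] in
theorem productMap_comp_lTensor {𝕐 R L T : Type u} [Field 𝕐] [Algebra K 𝕐] [CommRing R] [Algebra K R]
    [CommRing L] [Algebra K L] [CommRing T] [Algebra K T] (i : 𝕐 →ₐ[K] T) (j : L →ₐ[K] T)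
    (π : R →ₐ[K] L) (u : 𝕐 ⊗[K] R) :
    Algebra.TensorProduct.productMap i (j.comp π) u
      = Algebra.TensorProduct.productMap i j (LinearMap.lTensor 𝕐 π.toLinearMap u) := by
  induction u using TensorProduct.induction_on with
  | zero => simp
  | tmul a b => simp
  | add a b ha hb => rw [map_add, map_add, map_add, ha, hb]

/-- a nonzero function `s` regular at `y`, transported to `𝕐(A)` by `y + η`, is a fraction of `𝕐 ⊗ O_o` -/
theorem exists_witness {𝕐 : Type u} [Field 𝕐] [Algebra K 𝕐] [Algebra.EssFiniteType K 𝕐] (y : M.Pt 𝕐)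
    (s : F) (hs : s ∈ M.O (M.ctr y)) (hs0 : s ≠ 0) :
    ∃ u w : 𝕐 ⊗[K] M.O (M.ctr (0 : M.Pt K)), u ≠ 0 ∧ w ≠ 0 ∧
      M.ev (M.map (CF.inl K 𝕐 F) y + M.map (CF.inr K 𝕐 F) M.eta) s * theta M 𝕐 _ w
        = theta M 𝕐 _ u := by
  let π₀ : M.O (M.ctr (0 : M.Pt K)) →ₐ[K] 𝕐 := (Algebra.ofId K 𝕐).comp (M.evHom (0 : M.Pt K))
  have h0 : M.map π₀ (M.taut _) = 0 := by
    apply M.map_taut_eq_zero
    intro r hr
    have : M.evHom (0 : M.Pt K) r = 0 := by
      by_contra hne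
      exact hr ((M.isLocalHom_evHom (0 : M.Pt K)).map_nonunit r (isUnit_iff_ne_zero.mpr hne))
    change Algebra.ofId K 𝕐 (M.evHom (0 : M.Pt K) r) = 0
    rw [this, map_zero]
  have h1 : M.map (AlgHom.id K 𝕐) y + M.map π₀ (M.taut _) = y := by
    rw [h0, add_zero, M.map_id]
  obtain ⟨u, w, hw, huw, -⟩ := exists_fraction_ev M _ y (AlgHom.id K 𝕐) π₀ s (by rw [h1]; exact hs)
  have hw0 : w ≠ 0 := by
    rintro rfl
    exact hw (map_zero _)
  have hgen := isGeneric_inl_add_inr_eta M y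
  have hj : M.ev (M.map (CF.inl K 𝕐 F) y + M.map (CF.inr K 𝕐 F) M.eta) s ≠ 0 := by
    rw [← M.emb_apply _ hgen]
    exact (map_ne_zero _).mpr hs0
  refine ⟨u, w, ?_, hw0, huw⟩
  rintro rfl
  rw [map_zero] at huw
  rcases mul_eq_zero.mp huw with h | h
  · exact hj h
  · exact hw0 (theta_injective M _ (by rw [h, map_zero]))

theorem exists_pcurve_dim_lt' {𝕐 : Type u} [Field 𝕐] [Algebra K 𝕐] [Algebra.EssFiniteType K 𝕐]
    (y : M.Pt 𝕐) (h : ¬ M.IsGeneric y) :
    ∃ c : PCurve M, M.dim (M.ctr y)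
      < M.dim (M.ctr (M.bc 𝕐 (CF K 𝕐 c.FC) y + M.map (CF.inr K 𝕐 c.FC) c.α)) := by
  have ha : M.ctr y ≠ M.genPt := h
  obtain ⟨s, hs0, hsu⟩ := exists_nonunit M ha
  have hs0' : (s : F) ≠ 0 := fun h0 => hs0 (Subtype.ext h0)
  obtain ⟨u, w, hu, hw, huw⟩ := exists_witness M y s s.2 hs0'
  obtain ⟨h₀, hh₀, hsurv⟩ := exists_ne_zero_of_tensor u hu
  have hg : 1 ≤ M.g := by
    have := M.dim_lt_of_le_of_ne (M.le_O_genPt _) ha
    rw [M.dim_genPt] at this
    omega
  obtain ⟨c, π, hα, hπ⟩ := exists_curve M hg h₀ hh₀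
  refine ⟨c, M.dim_lt_of_le_of_ne (le_ctr_add M c y) ?_⟩
  intro hctr
  have hz : M.bc 𝕐 (CF K 𝕐 c.FC) y + M.map (CF.inr K 𝕐 c.FC) c.α = M.map (CF.inl K 𝕐 c.FC) y
      + M.map ((CF.inr K 𝕐 c.FC).comp π) (M.taut _) := by
    rw [M.map_comp, ← hα]
    rfl
  rw [hz] at hctr
  have hsz : (s : F) ∈ M.O (M.ctr (M.map (CF.inl K 𝕐 c.FC) y
      + M.map ((CF.inr K 𝕐 c.FC).comp π) (M.taut _))) := by rw [← hctr]; exact s.2
  have hev : M.ev (M.map (CF.inl K 𝕐 c.FC) y
      + M.map ((CF.inr K 𝕐 c.FC).comp π) (M.taut _)) s = 0 := by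
    by_contra hne
    have := M.ev_isUnit _ _ hsz (isUnit_iff_ne_zero.mpr hne)
    rw [← hctr] at this
    exact hsu ((AVModel.isUnit_subalgebra_iff s).mpr ⟨hs0', this⟩)
  obtain ⟨u', w', hw', h1, h2⟩ := exists_fraction_ev M _ y (CF.inl K 𝕐 c.FC)
    ((CF.inr K 𝕐 c.FC).comp π) s hsz
  rw [hev, zero_mul] at h2
  have h3 : u' * w = u * w' := by
    apply theta_injective M
    rw [map_mul, map_mul, ← h1, ← huw]
    ring
  have h4 := congrArg (Algebra.TensorProduct.productMap (CF.inl K 𝕐 c.FC)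
    ((CF.inr K 𝕐 c.FC).comp π)) h3
  rw [map_mul, map_mul, ← h2, zero_mul] at h4
  have h5 := (mul_eq_zero.mp h4.symm).resolve_right hw'
  rw [productMap_comp_lTensor] at h5
  exact hsurv _ π.toLinearMap hπ (TopAlg.productMap_inl_inr_injective (by rw [h5, map_zero]))

theorem exists_pcurve_dim_lt (Y : PField M) (h : ¬ M.IsGeneric Y.pt) :
    ∃ c : PCurve M, M.dim (M.ctr Y.pt) < M.dim (M.ctr (star c.α Y).pt) :=
  exists_pcurve_dim_lt' M Y.pt h

omit [IsAlgClosed K] in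
/-- the field of definition has transcendence degree at most that of the ambient field -/
theorem dim_le_trdeg {Ω : Type u} [Field Ω] [Algebra K Ω] (x : M.Pt Ω) :
    (M.dim (M.ctr x) : Cardinal) ≤ Algebra.trdeg K Ω := by
  rw [← M.trdeg_fd]
  exact trdeg_le_of_injective (M.fd x).val (M.fd x).val.toRingHom.injective

theorem exists_list (k : ℕ) (hk : k ≤ M.g) : ∃ l : List (PCurve M), l.length = k ∧
    M.dim (M.ctr (l.foldl (fun Y c => star c.α Y) (triv M)).pt) = k ∧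
    Algebra.trdeg K (l.foldl (fun Y c => star c.α Y) (triv M)).carrier = k := by
  induction k with
  | zero =>
    refine ⟨[], rfl, ?_, ?_⟩
    · have h1 := dim_le_trdeg M (triv M).pt
      have h2 : Algebra.trdeg K (triv M).carrier = 0 := by
        change Algebra.trdeg K K = 0
        exact trdeg_eq_zero
      rw [h2] at h1
      have : M.dim (M.ctr (triv M).pt) ≤ 0 := by exact_mod_cast h1
      exact Nat.le_zero.mp this
    · change Algebra.trdeg K K = _
      simpa using (trdeg_eq_zero : Algebra.trdeg K K = 0)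
  | succ k ih =>
    obtain ⟨l, hl, hdim, htr⟩ := ih (by omega)
    set Y := l.foldl (fun Y c => star c.α Y) (triv M) with hY
    have hng : ¬ M.IsGeneric Y.pt := by
      rw [M.isGeneric_iff_dim, hdim]; omega
    obtain ⟨c, hc⟩ := exists_pcurve_dim_lt M Y hng
    have e : (l ++ [c]).foldl (fun Y c => star c.α Y) (triv M) = star c.α Y := by
      rw [List.foldl_append]; rfl
    have htr' : Algebra.trdeg K (star c.α Y).carrier = ((k + 1 : ℕ) : Cardinal) := by
      change Algebra.trdeg K (CF K Y.carrier c.FC) = _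
      rw [trdeg_CF, htr, FF1.trdeg_eq_one]
      push_cast
      rfl
    have hle := dim_le_trdeg M (star c.α Y).pt
    rw [htr'] at hle
    have hle' : M.dim (M.ctr (star c.α Y).pt) ≤ k + 1 := by exact_mod_cast hle
    refine ⟨l ++ [c], by simp [hl], ?_, ?_⟩
    · rw [e]; omega
    · rw [e]; exact htr'

end Curves

/-- (B1) -/
theorem exists_curves : ∃ l : List (PCurve M), l.length = M.g ∧
    0 < (l.foldl (fun Y c => star c.α Y) (triv M)).deg := by
  obtain ⟨l, hl, hdim, htr⟩ := Curves.exists_list M M.g le_rfl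
  refine ⟨l, hl, ?_⟩
  set Y := l.foldl (fun Y c => star c.α Y) (triv M) with hY
  have hgen : M.IsGeneric Y.pt := M.isGeneric_iff_dim.mpr hdim
  unfold PField.deg
  rw [dif_pos hgen, ← M.fd_eq_fieldRange]
  set E₀ := M.fd Y.pt with hE₀
  have h1 : Algebra.trdeg K E₀ = M.g := by rw [M.trdeg_fd, hdim]
  have h2 : Algebra.trdeg K (⊤ : IntermediateField K Y.carrier) = M.g := by
    rw [← htr]
    exact (IntermediateField.topEquiv (F := K) (E := Y.carrier)).trdeg_eq
  have halg : Algebra.IsAlgebraic E₀ Y.carrier :=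
    ⟨fun z => StepA.isAlgebraic_of_trdeg_le E₀ ⊤ le_top
      (by rw [h1]; exact Cardinal.natCast_lt_aleph0) (by rw [h1, h2]) z trivial⟩
  have h7 : Algebra.EssFiniteType E₀ Y.carrier := Algebra.EssFiniteType.of_comp K E₀ Y.carrier
  have hfin : Module.Finite E₀ Y.carrier := Algebra.finite_of_essFiniteType_of_isAlgebraic
  exact Module.finrank_pos

end Fermat.Agent.S26
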