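import Fermat.Agent.S26.Top.PartV
import Fermat.Agent.S26.Top.Curves
import Fermat.Agent.S26.Top.Congr

/-! # S26 / M9b : `d(n) = n^(2g)` from (B1), (B2), (B3). -/

set_option autoImplicit false

universe u

namespace Fermat.Agent.S26

open AlgebraicCurve IsLocalRing PField

variable {K : Type u} [Field K] [IsAlgClosed K] {F : Type u} [Field F] [Algebra K F] {M : AVModel K F}

open TopAlg


namespace TopAlg

/-- `T l Y = ∑_{signs} deg ((C_r, ±α_r) * ⋯ * (C_1, ±α_1) * Y)` -/
noncomputable def T : List (PCurve M) → PField M → ℕ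
  | [], Y => Y.deg
  | c :: l, Y => T l (star c.α Y) + T l (star (-c.α) Y)

/-- the same with `n • α` -/
noncomputable def Tn (n : ℕ) : List (PCurve M) → PField M → ℕ
  | [], Y => Y.deg
  | c :: l, Y => Tn n l (star (n • c.α) Y) + Tn n l (star (-(n • c.α)) Y)

theorem T_congr (l : List (PCurve M)) {Y Y' : PField M} (h : Y.Equiv Y') : T l Y = T l Y' := by
  induction l generalizing Y Y' with
  | nil => exact deg_congr h
  | cons c l ih =>
    simp only [T]
    rw [ih (star_congr h c.α), ih (star_congr h (-c.α))]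

theorem T_star_zero (l : List (PCurve M)) (Y : PField M) {FC : Type u} [Field FC] [Algebra K FC]
    [FF1 K FC] : T l (star (0 : M.Pt FC) Y) = 0 := by
  induction l generalizing Y with
  | nil => exact deg_star_zero Y
  | cons c l ih =>
    simp only [T]
    rw [T_congr l (star_swap Y c.α (0 : M.Pt FC)), T_congr l (star_swap Y (-c.α) (0 : M.Pt FC)),
      ih, ih]

theorem T_cube (l : List (PCurve M)) (Y : PField M) {FC : Type u} [Field FC] [Algebra K FC]
    [FF1 K FC] (c₀ : Place K FC)
    (a₁ a₂ a₃ : M.Pt FC) (h₁ : M.red c₀ a₁ = 0) (h₂ : M.red c₀ a₂ = 0) (h₃ : M.red c₀ a₃ = 0) :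
    ((T l (star (a₁ + a₂ + a₃) Y) : ℕ) : ℤ) - T l (star (a₁ + a₂) Y) - T l (star (a₁ + a₃) Y)
      - T l (star (a₂ + a₃) Y) + T l (star a₁ Y) + T l (star a₂ Y) + T l (star a₃ Y) = 0 := by
  induction l generalizing Y with
  | nil => exact cube_deg Y c₀ a₁ a₂ a₃ h₁ h₂ h₃
  | cons c l ih =>
    have hsw : ∀ a : M.Pt FC, T (c :: l) (star a Y)
        = T l (star a (star c.α Y)) + T l (star a (star (-c.α) Y)) := by
      intro a
      simp only [T]
      rw [T_congr l (star_swap Y c.α a), T_congr l (star_swap Y (-c.α) a)]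
    have i1 := ih (star c.α Y)
    have i2 := ih (star (-c.α) Y)
    simp only [hsw]
    push_cast
    linarith

/-- the subgroup of points vanishing at `c₀` -/
noncomputable def ker0 {FC : Type u} [Field FC] [Algebra K FC] (c₀ : Place K FC) :
    AddSubgroup (M.Pt FC) := (M.redHom c₀).ker

theorem T_quadratic (l : List (PCurve M)) (Y : PField M) (n : ℕ) (c : PCurve M) :
    T l (star (n • c.α) Y) + T l (star (-(n • c.α)) Y)
      = n ^ 2 * (T l (star c.α Y) + T l (star (-c.α) Y)) := by
  let G := ker0 (M := M) c.c₀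
  let f : G → ℤ := fun a => T l (star (a : M.Pt c.FC) Y)
  have hmem : ∀ a : G, M.red c.c₀ (a : M.Pt c.FC) = 0 := fun a => a.2
  have h0 : f 0 = 0 := by
    change ((T l (star (0 : M.Pt c.FC) Y) : ℕ) : ℤ) = 0
    rw [T_star_zero]; rfl
  have hc : ∀ x y z, f (x + y + z) - f (x + y) - f (x + z) - f (y + z) + f x + f y + f z = 0 := by
    intro x y z
    exact T_cube l Y c.c₀ x y z (hmem x) (hmem y) (hmem z)
  have key := quadratic_of_cube f h0 hc n ⟨c.α, c.red_eq⟩
  have : ((T l (star (n • c.α) Y) + T l (star (-(n • c.α)) Y) : ℕ) : ℤ)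
      = ((n ^ 2 * (T l (star c.α Y) + T l (star (-c.α) Y)) : ℕ) : ℤ) := by
    push_cast
    exact key
  exact_mod_cast this

theorem Tn_eq (n : ℕ) (l : List (PCurve M)) (Y : PField M) :
    Tn n l Y = n ^ (2 * l.length) * T l Y := by
  induction l generalizing Y with
  | nil => simp [Tn, T]
  | cons c l ih =>
    simp only [Tn, T, List.length_cons]
    rw [ih, ih, ← mul_add, T_quadratic]
    ring

theorem Tn_smul (n : ℕ) (l : List (PCurve M)) (Y : PField M) :
    Tn n l (Y.smul n) = M.dn n * T l Y := by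
  induction l generalizing Y with
  | nil => exact deg_smul n Y
  | cons c l ih =>
    simp only [Tn, T]
    have e : -(n • c.α) = n • (-c.α) := (smul_neg n c.α).symm
    rw [e, star_smul, star_smul, ih, ih, mul_add]

theorem le_T (l : List (PCurve M)) (Y : PField M) :
    (l.foldl (fun Y c => star c.α Y) Y).deg ≤ T l Y := by
  induction l generalizing Y with
  | nil => exact le_rfl
  | cons c l ih =>
    simp only [T, List.foldl_cons]
    exact (ih _).trans (Nat.le_add_right _ _)

omit [IsAlgClosed K] in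
theorem triv_smul (n : ℕ) : (triv M).smul n = triv M := by
  unfold PField.smul triv
  simp

end TopAlg

/-- THE DEGREE OF MULTIPLICATION BY `n`. -/
theorem dn_eq_pow (M : AVModel K F) (n : ℕ) : M.dn n = n ^ (2 * M.g) := by
  obtain ⟨l, hl, hpos⟩ := exists_curves M
  have h1 := Tn_smul n l (triv M)
  rw [triv_smul, Tn_eq, hl] at h1
  have h2 : 0 < T l (triv M) := lt_of_lt_of_le hpos (le_T l _)
  exact (Nat.eq_of_mul_eq_mul_right h2 h1).symm

end Fermat.Agent.S26
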