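import Fermat.Agent.S26.Model.Basic
import Fermat.Agent.S26.Curve.Defs

/-! # S26 : pointed fields, their degree, and the product with a curve.  Definitions. -/

set_option autoImplicit false

universe u

namespace Fermat.Agent.S26

open AlgebraicCurve

variable {K : Type u} [Field K] {F : Type u} [Field F] [Algebra K F]

/-- A finitely generated field `𝕐/K` with a point `y ∈ A(𝕐)`. -/
structure PField (M : AVModel K F) : Type (u + 1) where
  carrier : Type u
  [field : Field carrier]
  [alg : Algebra K carrier]
  [ess : Algebra.EssFiniteType K carrier]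
  pt : M.Pt carrier

attribute [instance] PField.field PField.alg PField.ess

namespace PField

variable {M : AVModel K F}

open Classical in
/-- `deg (𝕐, y) = [𝕐 : K(y)]` if `y` is generic (and the degree is finite), `0` otherwise. -/
noncomputable def deg (Y : PField M) : ℕ :=
  if h : M.IsGeneric Y.pt then Module.finrank (M.emb Y.pt h).fieldRange Y.carrier else 0

/-- `n • (𝕐, y) = (𝕐, n y)` -/
def smul (n : ℕ) (Y : PField M) : PField M := { Y with pt := n • Y.pt }

/-- isomorphism of pointed fields -/
def Equiv (Y Y' : PField M) : Prop := ∃ e : Y.carrier ≃ₐ[K] Y'.carrier, M.map e.toAlgHom Y.pt = Y'.pt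

/-- the trivial pointed field `(K, 0)` -/
def triv (M : AVModel K F) : PField M where
  carrier := K
  pt := 0

variable [IsAlgClosed K]

/-- `(C, α) * (𝕐, y) = (𝕐(C), y + α)` -/
noncomputable def star {FC : Type u} [Field FC] [Algebra K FC] [FF1 K FC] (α : M.Pt FC) (Y : PField M) :
    PField M where
  carrier := CF K Y.carrier FC
  ess := haveI := FF1.essFiniteType (Ω := K) (𝕃 := FC); inferInstance
  pt := M.bc Y.carrier (CF K Y.carrier FC) Y.pt + M.map (CF.inr K Y.carrier FC) α

end PField

namespace AVModel

variable (M : AVModel K F)

open Classical in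
/-- `d(n) = [F : [n]^# F]` (`0` if `[n]` is not dominant) -/
noncomputable def dn (n : ℕ) : ℕ :=
  if h : M.IsGeneric (n • M.eta) then Module.finrank (M.emb (n • M.eta) h).fieldRange F else 0

end AVModel

/-- A curve through the origin of `A`: function field, point, base place. -/
structure PCurve (M : AVModel K F) : Type (u + 1) where
  FC : Type u
  [field : Field FC]
  [alg : Algebra K FC]
  [ff1 : FF1 K FC]
  α : M.Pt FC
  c₀ : Place K FC
  red_eq : M.red c₀ α = 0

attribute [instance] PCurve.field PCurve.alg PCurve.ff1

end Fermat.Agent.S26
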