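import Fermat.Agent.S26.Top.PtOf
import Fermat.Agent.S26.StepA
import Fermat.Agent.S26.Model.Div

/-! # S26 / M9a : behaviour of `deg ((C,α) * Y)` under extension of the field of `Y`. -/

set_option autoImplicit false

universe u

namespace Fermat.Agent.S26

open AlgebraicCurve IsLocalRing TensorProduct

namespace StarDeg

theorem finrank_tensor_left (K Y₀ Y FC : Type u) [Field K] [Field Y₀] [Field Y] [Field FC]
    [Algebra K Y₀] [Algebra K Y] [Algebra K FC] [Algebra Y₀ Y] [IsScalarTower K Y₀ Y]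
    [Algebra (Y₀ ⊗[K] FC) (Y ⊗[K] FC)]
    (h : ∀ a, algebraMap (Y₀ ⊗[K] FC) (Y ⊗[K] FC) a =
      Algebra.TensorProduct.map (IsScalarTower.toAlgHom K Y₀ Y) (AlgHom.id K FC) a) :
    Module.finrank (Y₀ ⊗[K] FC) (Y ⊗[K] FC) = Module.finrank Y₀ Y := by
  rw [← Module.finrank_baseChange (R := Y₀ ⊗[K] FC) (S := Y₀) (M' := Y)]
  symm
  let f : (Y₀ ⊗[K] FC) ⊗[Y₀] Y ≃+* Y ⊗[K] FC :=
    (Algebra.TensorProduct.comm Y₀ (Y₀ ⊗[K] FC) Y).toRingEquiv.trans
      (Algebra.TensorProduct.cancelBaseChange K Y₀ Y₀ Y FC).toRingEquiv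
  refine Algebra.finrank_eq_of_equiv_equiv (RingEquiv.refl _) f ?_
  refine RingHom.ext fun a => ?_
  induction a using TensorProduct.induction_on with
  | zero => simp
  | tmul y c =>
    simp [f, h, Algebra.smul_def]
  | add a b ha hb => simp only [map_add, ha, hb]


/-- degree of a field embedding -/
noncomputable def fdeg {A B : Type*} [Field A] [Field B] (e : A →+* B) : ℕ :=
  @Module.finrank A B _ _ e.toAlgebra.toModule

theorem fdeg_comp {A B C : Type*} [Field A] [Field B] [Field C] (e : A →+* B) (J : B →+* C) :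
    fdeg (J.comp e) = fdeg e * fdeg J := by
  letI := e.toAlgebra
  letI := J.toAlgebra
  letI := (J.comp e).toAlgebra
  haveI : IsScalarTower A B C := IsScalarTower.of_algebraMap_eq' rfl
  exact (Module.finrank_mul_finrank A B C).symm

theorem finrank_fieldRange {K A B : Type*} [Field K] [Field A] [Field B] [Algebra K A] [Algebra K B]
    (e : A →ₐ[K] B) : Module.finrank e.fieldRange B = fdeg e.toRingHom := by
  letI := e.toRingHom.toAlgebra
  symm
  refine Algebra.finrank_eq_of_equiv_equiv (AlgEquiv.ofInjectiveField e).toRingEquiv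
    (RingEquiv.refl B) ?_
  ext
  rfl

variable {K : Type u} [Field K] [IsAlgClosed K]
variable {Y₀ Y FC : Type u} [Field Y₀] [Algebra K Y₀] [Field Y] [Algebra K Y] [Field FC] [Algebra K FC]

theorem injective_map_tensor (j : Y₀ →ₐ[K] Y) :
    Function.Injective (Algebra.TensorProduct.map j (AlgHom.id K FC)) :=
  Module.Flat.rTensor_preserves_injective_linearMap (M := FC) j.toLinearMap j.toRingHom.injective

theorem injective_toCF (j : Y₀ →ₐ[K] Y) :
    Function.Injective ((IsScalarTower.toAlgHom K (Y ⊗[K] FC) (CF K Y FC)).comp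
      (Algebra.TensorProduct.map j (AlgHom.id K FC))) :=
  (IsFractionRing.injective (Y ⊗[K] FC) (CF K Y FC)).comp (injective_map_tensor j)

/-- `Y₀(C) → Y(C)` -/
noncomputable def mapL (j : Y₀ →ₐ[K] Y) : CF K Y₀ FC →ₐ[K] CF K Y FC :=
  IsFractionRing.liftAlgHom (injective_toCF j)

theorem mapL_algebraMap (j : Y₀ →ₐ[K] Y) (a : Y₀ ⊗[K] FC) :
    mapL j (algebraMap _ (CF K Y₀ FC) a) =
      algebraMap _ (CF K Y FC) (Algebra.TensorProduct.map j (AlgHom.id K FC) a) := by
  rw [mapL, IsFractionRing.liftAlgHom_apply, IsFractionRing.lift_algebraMap]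
  rfl

theorem mapL_comp_inl (j : Y₀ →ₐ[K] Y) :
    (mapL j).comp (CF.inl K Y₀ FC) = (CF.inl K Y FC).comp j := by
  ext y
  rw [AlgHom.comp_apply, CF.inl_eq_algebraMap, mapL_algebraMap, AlgHom.comp_apply,
    CF.inl_eq_algebraMap]
  simp

theorem mapL_comp_inr (j : Y₀ →ₐ[K] Y) :
    (mapL j).comp (CF.inr K Y₀ FC) = CF.inr K Y FC := by
  ext c
  rw [AlgHom.comp_apply, CF.inr_eq_algebraMap, mapL_algebraMap, CF.inr_eq_algebraMap]
  simp

theorem fdeg_mapL (j : Y₀ →ₐ[K] Y) :
    fdeg (mapL (FC := FC) j).toRingHom = fdeg j.toRingHom := by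
  letI : Algebra Y₀ Y := j.toRingHom.toAlgebra
  haveI : IsScalarTower K Y₀ Y := IsScalarTower.of_algebraMap_eq' j.comp_algebraMap.symm
  letI : Algebra (Y₀ ⊗[K] FC) (Y ⊗[K] FC) :=
    (Algebra.TensorProduct.map j (AlgHom.id K FC)).toRingHom.toAlgebra
  letI : Algebra (CF K Y₀ FC) (CF K Y FC) := (mapL j).toRingHom.toAlgebra
  haveI : IsScalarTower (Y₀ ⊗[K] FC) (CF K Y₀ FC) (CF K Y FC) :=
    IsScalarTower.of_algebraMap_eq fun a => by
      rw [IsScalarTower.algebraMap_apply (Y₀ ⊗[K] FC) (Y ⊗[K] FC) (CF K Y FC)]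
      exact (mapL_algebraMap j a).symm
  have h1 := IsFractionRing.finrank_eq (Y₀ ⊗[K] FC) (CF K Y₀ FC) (Y ⊗[K] FC) (CF K Y FC)
  have h2 := finrank_tensor_left K Y₀ Y FC (fun a => rfl)
  exact h1.trans h2

end StarDeg

open StarDeg PField

variable {K : Type u} [Field K] {F : Type u} [Field F] [Algebra K F] {M : AVModel K F}

/-- the degree of a pointed field under a field extension -/
theorem PField.deg_of_map (Z₀ Z : PField M) (J : Z₀.carrier →ₐ[K] Z.carrier)
    (hJ : M.map J Z₀.pt = Z.pt) : Z.deg = Z₀.deg * fdeg J.toRingHom := by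
  have hiff : M.IsGeneric Z.pt ↔ M.IsGeneric Z₀.pt := by
    rw [← hJ, AVModel.IsGeneric, AVModel.IsGeneric, M.ctr_map_field]
  unfold PField.deg
  by_cases h : M.IsGeneric Z₀.pt
  · have h' := hiff.mpr h
    rw [dif_pos h, dif_pos h', finrank_fieldRange, finrank_fieldRange, ← fdeg_comp]
    congr 1
    ext r
    show M.ev Z.pt r = J (M.ev Z₀.pt r)
    rw [← hJ, M.ev_map J Z₀.pt r (by rw [h, M.O_genPt]; trivial)]
  · rw [dif_neg h, dif_neg (fun h' => h (hiff.mp h')), zero_mul]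

/-- a pointed field of nonzero degree is generic, of transcendence degree `g` -/
theorem PField.trdeg_of_deg_ne_zero (Z : PField M) (h : Z.deg ≠ 0) :
    M.IsGeneric Z.pt ∧ Algebra.trdeg K Z.carrier = M.g := by
  unfold PField.deg at h
  by_cases hg : M.IsGeneric Z.pt
  · refine ⟨hg, ?_⟩
    rw [dif_pos hg] at h
    have hfin : FiniteDimensional (M.emb Z.pt hg).fieldRange Z.carrier :=
      Module.finite_of_finrank_pos (Nat.pos_of_ne_zero h)
    have h0 : Algebra.trdeg (M.emb Z.pt hg).fieldRange Z.carrier = 0 := trdeg_eq_zero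
    have h1 := StepA.trdeg_add_eq_field K (M.emb Z.pt hg).fieldRange Z.carrier
    have h2 : Algebra.trdeg K F = Algebra.trdeg K (M.emb Z.pt hg).fieldRange :=
      (AlgEquiv.ofInjectiveField (M.emb Z.pt hg)).trdeg_eq
    rw [h0, add_zero, ← h2, M.trdeg_eq] at h1
    exact h1.symm
  · rw [dif_neg hg] at h
    exact absurd rfl h

theorem AVModel.dim_ctr_le_trdeg {Ω : Type u} [Field Ω] [Algebra K Ω] (x : M.Pt Ω) :
    (M.dim (M.ctr x) : Cardinal) ≤ Algebra.trdeg K Ω := by
  rw [← M.trdeg_fd]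
  exact trdeg_le_of_injective (M.fd x).val (M.fd x).val.toRingHom.injective

variable [IsAlgClosed K]

theorem PField.star_pt_map (Y₀ Y : PField M) (j : Y₀.carrier →ₐ[K] Y.carrier)
    (hj : M.map j Y₀.pt = Y.pt) {FC : Type u} [Field FC] [Algebra K FC] [FF1 K FC] (α : M.Pt FC) :
    M.map (mapL (FC := FC) j) (star α Y₀).pt = (star α Y).pt := by
  show M.map (mapL (FC := FC) j) (M.map (CF.inl K Y₀.carrier FC) Y₀.pt +
    M.map (CF.inr K Y₀.carrier FC) α) = M.map (CF.inl K Y.carrier FC) Y.pt +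
    M.map (CF.inr K Y.carrier FC) α
  rw [M.map_add, ← M.map_comp, ← M.map_comp, mapL_comp_inl, mapL_comp_inr, M.map_comp, hj]

theorem PField.deg_star_map (Y₀ Y : PField M) (j : Y₀.carrier →ₐ[K] Y.carrier)
    (hj : M.map j Y₀.pt = Y.pt) {FC : Type u} [Field FC] [Algebra K FC] [FF1 K FC] (α : M.Pt FC) :
    (star α Y).deg = Module.finrank j.fieldRange Y.carrier * (star α Y₀).deg := by
  have h1 := PField.deg_of_map (star α Y₀) (star α Y) (mapL (FC := FC) j)
    (PField.star_pt_map Y₀ Y j hj α)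
  have h2 : fdeg (mapL (FC := FC) j).toRingHom = fdeg j.toRingHom := fdeg_mapL j
  rw [finrank_fieldRange j, ← h2, mul_comm]
  exact h1

/-- (V2) -/
theorem deg_star_eq_mul' (Y : PField M) {FC : Type u} [Field FC] [Algebra K FC]
    [FF1 K FC] (α : M.Pt FC) :
    (star α Y).deg = Module.finrank (M.fd Y.pt) Y.carrier * (star α (M.pfOf (M.ctr Y.pt))).deg := by
  have h1 := PField.deg_star_map (M.pfOf (M.ctr Y.pt)) Y (M.resEmb Y.pt) (M.map_resEmb_ptOf Y.pt) α
  rw [← M.fieldRange_resEmb Y.pt]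
  exact h1

theorem trdeg_star (Y : PField M) {FC : Type u} [Field FC] [Algebra K FC] [FF1 K FC] (α : M.Pt FC) :
    Algebra.trdeg K (star α Y).carrier = Algebra.trdeg K Y.carrier + 1 := by
  have h := trdeg_CF (K := K) Y.carrier FC
  rw [FF1.trdeg_eq_one (Ω := K) (𝕃 := FC)] at h
  exact h

theorem deg_star_zero' (Y : PField M) {FC : Type u} [Field FC] [Algebra K FC] [FF1 K FC] :
    (star (0 : M.Pt FC) Y).deg = 0 := by
  by_contra hne
  obtain ⟨hg, ht⟩ := PField.trdeg_of_deg_ne_zero _ hne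
  rw [trdeg_star] at ht
  have hd : M.dim (M.ctr Y.pt) = M.g := by
    rw [← M.isGeneric_iff_dim]
    have h5 : M.ctr (M.map (CF.inl K Y.carrier FC) Y.pt + M.map (CF.inr K Y.carrier FC) 0) =
      M.genPt := hg
    rw [M.map_zero, add_zero, M.ctr_map_field] at h5
    exact h5
  have h1 := M.dim_ctr_le_trdeg Y.pt
  rw [hd] at h1
  have hlt : Algebra.trdeg K Y.carrier < Cardinal.aleph0 := by
    refine lt_of_le_of_lt ?_ (Cardinal.natCast_lt_aleph0 (n := M.g))
    rw [← ht]
    exact le_self_add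
  obtain ⟨n, hn⟩ := Cardinal.lt_aleph0.mp hlt
  rw [hn] at ht h1
  have h2 : n + 1 = M.g := by exact_mod_cast ht
  have h3 : M.g ≤ n := by exact_mod_cast h1
  omega

/-- (V3) degenerate cases -/
theorem deg_star_eq_zero' (Y : PField M)
    (h : ¬ (M.IsPrimeDivisor (M.ctr Y.pt) ∧ FiniteDimensional (M.fd Y.pt) Y.carrier))
    {FC : Type u} [Field FC] [Algebra K FC] [FF1 K FC] (α : M.Pt FC) : (star α Y).deg = 0 := by
  by_contra hne
  apply h
  have hmul := deg_star_eq_mul' Y α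
  have hne1 : Module.finrank (M.fd Y.pt) Y.carrier ≠ 0 := by
    intro h0
    rw [h0, zero_mul] at hmul
    exact hne hmul
  have hne2 : (star α (M.pfOf (M.ctr Y.pt))).deg ≠ 0 := by
    intro h0
    rw [h0, mul_zero] at hmul
    exact hne hmul
  refine ⟨?_, Module.finite_of_finrank_pos (Nat.pos_of_ne_zero hne1)⟩
  obtain ⟨-, ht⟩ := PField.trdeg_of_deg_ne_zero _ hne2
  rw [trdeg_star] at ht
  have h2 : Algebra.trdeg K (M.pfOf (M.ctr Y.pt)).carrier = M.dim (M.ctr Y.pt) :=
    M.trdeg_residueField _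
  rw [h2] at ht
  show M.dim (M.ctr Y.pt) + 1 = M.g
  exact_mod_cast ht

end Fermat.Agent.S26
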