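import Fermat.Agent.S26.Top.Defs
import Fermat.Agent.S26.Lambda
import Fermat.Agent.S26.Model.Taut
import Fermat.Agent.S26.Top.StarDeg
import Fermat.Agent.S26.Top.V1.Final

/-! # S26 / M9a : `deg ((C,α) * Y)` in terms of `q_D(α)` (Part V), and the cube identity for `deg`. -/

set_option autoImplicit false

universe u

namespace Fermat.Agent.S26

open AlgebraicCurve IsLocalRing

variable {K : Type u} [Field K] [IsAlgClosed K] {F : Type u} [Field F] [Algebra K F] (M : AVModel K F)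

-- `essFiniteType_residueField`, `exists_ptOf` : `Model/Taut.lean`; `ptOf`, `pfOf` : `Top/PtOf.lean`;
-- proofs of (V2), (V3) : `Top/StarDeg.lean`.

open PField

variable {M}

/-- (V1)  `(η - α)^* D` is a single place of multiplicity one (the Gauss place of `O_ζ` w.r.t. the sheared
decomposition `F(C) = FC · (η-α)^#F`) if `ζ + α` is generic, and `0` otherwise; its degree over `F` is
`[κ(ζ)(C) : K(ζ + α)]`.  Full proof: board topic S26, post "M9a". -/
theorem qD_eq_deg_star (ζ : M.X) (hζ : M.IsPrimeDivisor ζ) {FC : Type u} [Field FC] [Algebra K FC]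
    [FF1 K FC] (α : M.Pt FC) : M.qD ζ α = (star α (M.pfOf ζ)).deg :=
  V1.main M hζ α

/-- (V2) -/
theorem deg_star_eq_mul (Y : PField M) (hζ : M.IsPrimeDivisor (M.ctr Y.pt))
    (hfin : FiniteDimensional (M.fd Y.pt) Y.carrier) {FC : Type u} [Field FC] [Algebra K FC]
    [FF1 K FC] (α : M.Pt FC) :
    (star α Y).deg = Module.finrank (M.fd Y.pt) Y.carrier * (star α (M.pfOf (M.ctr Y.pt))).deg :=
  deg_star_eq_mul' Y α

/-- (V3) degenerate cases -/
theorem deg_star_eq_zero (Y : PField M)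
    (h : ¬ (M.IsPrimeDivisor (M.ctr Y.pt) ∧ FiniteDimensional (M.fd Y.pt) Y.carrier))
    {FC : Type u} [Field FC] [Algebra K FC] [FF1 K FC] (α : M.Pt FC) : (star α Y).deg = 0 :=
  deg_star_eq_zero' Y h α

theorem deg_star_zero (Y : PField M) {FC : Type u} [Field FC] [Algebra K FC] [FF1 K FC] :
    (star (0 : M.Pt FC) Y).deg = 0 :=
  deg_star_zero' Y

/-- (B3) THE CUBE IDENTITY for `α ↦ deg ((C,α) * Y)`. -/
theorem cube_deg (Y : PField M) {FC : Type u} [Field FC] [Algebra K FC] [FF1 K FC] (c₀ : Place K FC)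
    (a₁ a₂ a₃ : M.Pt FC) (h₁ : M.red c₀ a₁ = 0) (h₂ : M.red c₀ a₂ = 0) (h₃ : M.red c₀ a₃ = 0) :
    ((star (a₁ + a₂ + a₃) Y).deg : ℤ) - (star (a₁ + a₂) Y).deg - (star (a₁ + a₃) Y).deg
      - (star (a₂ + a₃) Y).deg + (star a₁ Y).deg + (star a₂ Y).deg + (star a₃ Y).deg = 0 := by
  by_cases h : M.IsPrimeDivisor (M.ctr Y.pt) ∧ FiniteDimensional (M.fd Y.pt) Y.carrier
  · have key : ∀ a : M.Pt FC, ((star a Y).deg : ℤ) =
        Module.finrank (M.fd Y.pt) Y.carrier * M.qD (M.ctr Y.pt) a := by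
      intro a
      rw [deg_star_eq_mul Y h.1 h.2 a, qD_eq_deg_star _ h.1 a]
      push_cast
      ring
    have h0 : M.qD (M.ctr Y.pt) (0 : M.Pt FC) = 0 := by
      rw [qD_eq_deg_star _ h.1, deg_star_zero]
      rfl
    have hc := M.qD_cube (M.ctr Y.pt) c₀ a₁ a₂ a₃ h₁ h₂ h₃
    rw [h0] at hc
    simp only [key]
    linear_combination (Module.finrank (M.fd Y.pt) Y.carrier : ℤ) * hc
  · simp only [deg_star_eq_zero Y h]
    simp

end Fermat.Agent.S26
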