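import Fermat.Agent.S26.Top.Defs
import Fermat.Agent.S26.Model.Taut

/-! # S26 / M9a : the tautological point `Spec κ(a) → A`. -/

set_option autoImplicit false

universe u

namespace Fermat.Agent.S26

open AlgebraicCurve IsLocalRing

variable {K : Type u} [Field K] {F : Type u} [Field F] [Algebra K F] (M : AVModel K F)

namespace AVModel

instance essFiniteType_O (a : M.X) : Algebra.EssFiniteType K (M.O a) := by
  obtain ⟨R₀, hfg, -, q, hq, hqa⟩ := M.exists_chart a
  have hR₀ : R₀ ≤ M.O a := fun r hr =>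
    (hqa r).mpr ⟨⟨r, hr⟩, 1, fun h1 => hq.ne_top ((Ideal.eq_top_iff_one q).mpr h1), by simp⟩
  have hunit : ∀ t : R₀, t ∉ q → (t : F) ≠ 0 ∧ (t : F)⁻¹ ∈ M.O a := by
    intro t ht
    have ht0 : (t : F) ≠ 0 := by
      intro h0
      apply ht
      have : t = 0 := Subtype.ext h0
      rw [this]; exact zero_mem q
    exact ⟨ht0, (hqa _).mpr ⟨1, t, ht, by simp [ht0]⟩⟩
  let j : R₀ →ₐ[K] M.O a := Subalgebra.inclusion hR₀
  have : Algebra.FiniteType K R₀ := (Subalgebra.fg_iff_finiteType R₀).mp hfg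
  let _ : Algebra R₀ (M.O a) := j.toRingHom.toAlgebra
  have : IsScalarTower K R₀ (M.O a) := IsScalarTower.of_algebraMap_eq' j.comp_algebraMap.symm
  have hloc : IsLocalization q.primeCompl (M.O a) :=
    { map_units := fun t => (isUnit_subalgebra_iff (j t)).mpr (hunit t t.2)
      surj := fun r => by
        obtain ⟨s, t, ht, hrt⟩ := (hqa r).mp r.2
        exact ⟨(s, ⟨t, ht⟩), Subtype.ext hrt⟩
      exists_of_eq := fun {x y} hxy => by
        have : x = y := Subtype.ext (congrArg (fun z : M.O a => (z : F)) hxy)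
        exact ⟨1, by rw [this]⟩ }
  have : Algebra.EssFiniteType R₀ (M.O a) := Algebra.EssFiniteType.of_isLocalization _ q.primeCompl
  exact Algebra.EssFiniteType.comp K R₀ (M.O a)

/-- the tautological point `Spec κ(a) → A` -/
noncomputable def ptOf (a : M.X) : M.Pt (ResidueField (M.O a)) := (M.exists_ptOf a).choose

theorem ctr_ptOf (a : M.X) : M.ctr (M.ptOf a) = a := (M.exists_ptOf a).choose_spec.1

theorem ev_ptOf (a : M.X) (r : M.O a) : M.ev (M.ptOf a) r = residue _ r :=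
  (M.exists_ptOf a).choose_spec.2 r

/-- `(κ(a), a)` as a pointed field -/
noncomputable def pfOf (a : M.X) : PField M where
  carrier := ResidueField (M.O a)
  pt := M.ptOf a

section
variable {Ω : Type u} [Field Ω] [Algebra K Ω]

/-- `κ(ctr x) → Ω` -/
noncomputable def resEmb (x : M.Pt Ω) : ResidueField (M.O (M.ctr x)) →ₐ[K] Ω :=
  Ideal.Quotient.liftₐ (maximalIdeal (M.O (M.ctr x))) (M.evHom x) (by
    intro r hr
    by_contra h0
    exact hr ((M.isLocalHom_evHom x).map_nonunit r (isUnit_iff_ne_zero.mpr h0)))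

theorem resEmb_residue (x : M.Pt Ω) (r : M.O (M.ctr x)) : M.resEmb x (residue _ r) = M.ev x r := rfl

theorem map_resEmb_ptOf (x : M.Pt Ω) : M.map (M.resEmb x) (M.ptOf (M.ctr x)) = x := by
  have hc : M.ctr (M.map (M.resEmb x) (M.ptOf (M.ctr x))) = M.ctr x := by
    rw [M.ctr_map_field, M.ctr_ptOf]
  apply M.pt_ext _ _ hc
  intro r hr
  rw [hc] at hr
  rw [M.ev_map _ _ r (by rw [M.ctr_ptOf]; exact hr), M.ev_ptOf _ ⟨r, hr⟩, resEmb_residue]

theorem fieldRange_resEmb (x : M.Pt Ω) : (M.resEmb x).fieldRange = M.fd x := by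
  ext w
  rw [M.mem_fd]
  constructor
  · rintro ⟨z, rfl⟩
    obtain ⟨r, rfl⟩ := residue_surjective z
    exact ⟨r, r.2, rfl⟩
  · rintro ⟨r, hr, rfl⟩
    exact ⟨residue _ ⟨r, hr⟩, rfl⟩

end

end AVModel

end Fermat.Agent.S26
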